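import Mathlib
import Fermat.Agent.LT.T7.Spec
import Fermat.Agent.LT.H701.Psi

/-!
# Row LT, tower T7, leaf T7.07 (helper176), OFF-MAIN: `|a_v| ≤ 2` from `MidData`

The identity of `H130.MidData` at a place, `satakePow d a 1 = tr Ψ (τ ^ d)` with
`τ = g ^ ordSL g`, `d = ordQ8 τ`, forces `‖a‖ ≤ 2`:

* `d = 1`: `a = tr Ψ τ`, `τ ^ 4 = 1`, a trace of a complex matrix of finite order;
* `d = 2`: `a² - 2 = tr Ψ (τ²)`, `(τ²)⁴ = 1`, so `‖a‖² ≤ 4`;
* `d = 3`: `τ ∈ SL₂(𝔽₃)`, `τ ∉ Q8`, so `τ³ = ± 1` (brute force), `Ψ (-1) = -1` (helper701), and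
  `a³ - 3 a = ± 2 = (a ∓ 2)(a ± 1)²`.

Imports: `T7/Spec.lean` and `LT/H701/Psi.lean` (helper701, IDENT block; byte-identical copies of
origin/helper17, the master closure).
-/

set_option autoImplicit false

open Matrix FLT.ExplicitLift

noncomputable section

namespace Fermat.Agent.LT.T7.H176

open Fermat.Agent.LT.H130 Fermat.Agent.LT.H701

/-! ## Traces of complex matrices of finite order -/

/-- The trace of a complex `2 × 2` matrix of finite order has norm at most `2`. -/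
theorem norm_trace_le_two176 (M : Matrix (Fin 2) (Fin 2) ℂ) (n : ℕ) (hn : 0 < n)
    (hM : M ^ n = 1) : ‖M.trace‖ ≤ 2 := by
  -- a root `x` of the characteristic polynomial
  obtain ⟨w, hw⟩ := IsAlgClosed.exists_pow_nat_eq (M.trace ^ 2 - 4 * M.det) (n := 2) (by norm_num)
  set x : ℂ := (M.trace + w) / 2 with hx
  set y : ℂ := (M.trace - w) / 2 with hy
  have hxroot : (M - x • (1 : Matrix (Fin 2) (Fin 2) ℂ)).det = 0 := by
    rw [det_sub_smul_one_h701, hx]
    linear_combination (1 / 4 : ℂ) * hw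
  have hyroot : (M - y • (1 : Matrix (Fin 2) (Fin 2) ℂ)).det = 0 := by
    rw [det_sub_smul_one_h701, hy]
    linear_combination (1 / 4 : ℂ) * hw
  have hxn : x ^ n = 1 := pow_eq_one_of_det_h701 M n hM x hxroot
  have hyn : y ^ n = 1 := pow_eq_one_of_det_h701 M n hM y hyroot
  have hxnorm : ‖x‖ = 1 := by
    have h := congrArg norm hxn
    rw [norm_pow, norm_one] at h
    exact (pow_eq_one_iff_of_nonneg (norm_nonneg x) hn.ne').mp h
  have hynorm : ‖y‖ = 1 := by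
    have h := congrArg norm hyn
    rw [norm_pow, norm_one] at h
    exact (pow_eq_one_iff_of_nonneg (norm_nonneg y) hn.ne').mp h
  have hsum : M.trace = x + y := by rw [hx, hy]; ring
  calc ‖M.trace‖ = ‖x + y‖ := by rw [hsum]
    _ ≤ ‖x‖ + ‖y‖ := norm_add_le x y
    _ = 2 := by rw [hxnorm, hynorm]; norm_num

/-! ## The complex representation `R = ι ∘ Ψ` -/

section Psi

variable (Ψ : GL (Fin 2) (ZMod 3) →* GL (Fin 2) (ℤ√(-2))) (ι : ℤ√(-2) →+* ℂ)

theorem trΨ_eq176 (g : GL (Fin 2) (ZMod 3)) :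
    trΨ Ψ ι g = (rhom_h701 ι Ψ g).val.trace := by
  rw [trace_rhom_h701]
  rfl

/-- `‖tr Ψ g‖ ≤ 2` for `g` of finite order. -/
theorem norm_trΨ_le_two176 (g : GL (Fin 2) (ZMod 3)) (n : ℕ) (hn : 0 < n) (hg : g ^ n = 1) :
    ‖trΨ Ψ ι g‖ ≤ 2 := by
  rw [trΨ_eq176]
  apply norm_trace_le_two176 _ n hn
  rw [← Units.val_pow_eq_pow_val, ← map_pow, hg, map_one]
  rfl

theorem trΨ_one176 : trΨ Ψ ι 1 = 2 := by
  rw [trΨ_eq176, map_one]
  simp [Matrix.trace]

theorem trΨ_neg_one176 (hΨ : ∀ g, Matrix.GeneralLinearGroup.map red (Ψ g) = g) :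
    trΨ Ψ ι (-1) = -2 := by
  rw [trΨ_eq176, rhom_neg_one_h701 Ψ hΨ ι]
  simp [Matrix.trace]

end Psi

/-! ## Brute force in `SL₂(𝔽₃)` -/

theorem bf_cube176 : ∀ a b c e : ZMod 3, a * e - b * c = 1 →
    (!![a, b; c, e] : Matrix (Fin 2) (Fin 2) (ZMod 3)) ^ 4 = 1 ∨
    (!![a, b; c, e] : Matrix (Fin 2) (Fin 2) (ZMod 3)) ^ 3 = 1 ∨
    (!![a, b; c, e] : Matrix (Fin 2) (Fin 2) (ZMod 3)) ^ 3 = -1 := by
  decide

/-- An element of `SL₂(𝔽₃)` lies in `Q8` or its cube is `± 1`. -/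
theorem cube_cases176 (g : GL (Fin 2) (ZMod 3)) (hdet : Matrix.GeneralLinearGroup.det g = 1) :
    g ^ 4 = 1 ∨ g ^ 3 = 1 ∨ g ^ 3 = -1 := by
  have key := bf_cube176 _ _ _ _ (by linear_combination det_val_h701 g hdet :
    g.val 0 0 * g.val 1 1 - g.val 0 1 * g.val 1 0 = 1)
  rw [← val_eq_of_h701] at key
  rcases key with h | h | h
  · left
    apply Units.ext
    rw [Units.val_pow_eq_pow_val, h]
    rfl
  · right; left
    apply Units.ext
    rw [Units.val_pow_eq_pow_val, h]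
    rfl
  · right; right
    apply Units.ext
    rw [Units.val_pow_eq_pow_val, h]
    rfl

/-- `det (g ^ ordSL g) = 1`. -/
theorem det_pow_ordSL176 (g : GL (Fin 2) (ZMod 3)) :
    Matrix.GeneralLinearGroup.det (g ^ ordSL g) = 1 := by
  unfold ordSL
  by_cases h : Matrix.GeneralLinearGroup.det g = 1
  · rw [if_pos h, pow_one, h]
  · rw [if_neg h, map_pow]
    have : ∀ x : (ZMod 3)ˣ, x ^ 2 = 1 := by decide
    exact this _

/-! ## The cubic -/

theorem norm_le_two_of_cubic_pos176 (a : ℂ) (h : a ^ 3 - 3 * a = 2) : ‖a‖ ≤ 2 := by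
  have hf : (a - 2) * ((a + 1) * (a + 1)) = 0 := by linear_combination h
  rcases mul_eq_zero.mp hf with h1 | h1
  · rw [sub_eq_zero.mp h1]; norm_num
  · have h2 : a + 1 = 0 := by
      rcases mul_eq_zero.mp h1 with h2 | h2 <;> exact h2
    rw [eq_neg_of_add_eq_zero_left h2]; norm_num

theorem norm_le_two_of_cubic_neg176 (a : ℂ) (h : a ^ 3 - 3 * a = -2) : ‖a‖ ≤ 2 := by
  have hf : (a + 2) * ((a - 1) * (a - 1)) = 0 := by linear_combination h
  rcases mul_eq_zero.mp hf with h1 | h1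
  · rw [eq_neg_of_add_eq_zero_left h1]; norm_num
  · have h2 : a - 1 = 0 := by
      rcases mul_eq_zero.mp h1 with h2 | h2 <;> exact h2
    rw [sub_eq_zero.mp h2]; norm_num

/-! ## The bound -/

/-- **The identity of `MidData` (with `b = 1`) forces `‖a‖ ≤ 2`.** -/
theorem norm_le_two_of_mid176 (Ψ : GL (Fin 2) (ZMod 3) →* GL (Fin 2) (ℤ√(-2)))
    (hΨ : ∀ g, Matrix.GeneralLinearGroup.map red (Ψ g) = g) (ι : ℤ√(-2) →+* ℂ)
    (g : GL (Fin 2) (ZMod 3)) (a : ℂ)
    (h : AutomorphicForm.satakePow (ordQ8 (g ^ ordSL g)) a 1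
      = trΨ Ψ ι ((g ^ ordSL g) ^ ordQ8 (g ^ ordSL g))) : ‖a‖ ≤ 2 := by
  classical
  set τ : GL (Fin 2) (ZMod 3) := g ^ ordSL g with hτ
  have hdet : Matrix.GeneralLinearGroup.det τ = 1 := det_pow_ordSL176 g
  by_cases h1 : InQ8 τ
  · -- `d = 1`
    have hd : ordQ8 τ = 1 := by unfold ordQ8; rw [if_pos h1]
    rw [hd, pow_one, AutomorphicForm.satakePow_one] at h
    rw [h]
    exact norm_trΨ_le_two176 Ψ ι τ 4 (by norm_num) h1.2
  · by_cases h2 : InQ8 (τ ^ 2)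
    · -- `d = 2`
      have hd : ordQ8 τ = 2 := by unfold ordQ8; rw [if_neg h1, if_pos h2]
      rw [hd] at h
      have hs : AutomorphicForm.satakePow 2 a 1 = a * a - 2 := by
        rw [show (2 : ℕ) = 0 + 2 from rfl, AutomorphicForm.satakePow_add_two]
        simp
      rw [hs] at h
      have ht : ‖trΨ Ψ ι (τ ^ 2)‖ ≤ 2 := norm_trΨ_le_two176 Ψ ι (τ ^ 2) 4 (by norm_num) h2.2
      have haa : a * a = 2 + trΨ Ψ ι (τ ^ 2) := by linear_combination h
      have hn : ‖a‖ * ‖a‖ ≤ 2 * 2 := by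
        rw [← norm_mul, haa]
        calc ‖(2 : ℂ) + trΨ Ψ ι (τ ^ 2)‖ ≤ ‖(2 : ℂ)‖ + ‖trΨ Ψ ι (τ ^ 2)‖ := norm_add_le _ _
          _ ≤ 2 + 2 := by
              have : ‖(2 : ℂ)‖ = 2 := by norm_num
              rw [this]; linarith
          _ = 2 * 2 := by norm_num
      by_contra hcon
      have hlt : (2 : ℝ) < ‖a‖ := not_le.mp hcon
      nlinarith [norm_nonneg a]
    · -- `d = 3`
      have hd : ordQ8 τ = 3 := by unfold ordQ8; rw [if_neg h1, if_neg h2]
      rw [hd] at h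
      have hs : AutomorphicForm.satakePow 3 a 1 = a ^ 3 - 3 * a := by
        rw [show (3 : ℕ) = 1 + 2 from rfl, AutomorphicForm.satakePow_add_two,
          show (1 + 1 : ℕ) = 0 + 2 from rfl, AutomorphicForm.satakePow_add_two]
        simp
        ring
      rw [hs] at h
      rcases cube_cases176 τ hdet with h4 | h3 | h3
      · exact absurd ⟨hdet, h4⟩ h1
      · rw [h3, trΨ_one176] at h
        exact norm_le_two_of_cubic_pos176 a h
      · rw [h3, trΨ_neg_one176 Ψ ι hΨ] at h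
        exact norm_le_two_of_cubic_neg176 a h

end Fermat.Agent.LT.T7.H176

end
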