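import Mathlib
import Fermat.Agent.LT.T7.Spec

/-!
# Row LT, tower T7, leaf T7.07 (helper176), OFF-MAIN: places of a number field over primes

Elementary facts (Mathlib only + the vocabulary of `T7/Spec.lean`):
every finite place contains exactly one prime number `p`, `N v ≥ p`, at most `[K : ℚ]` places
contain `p`, the places over a finite set of primes form a finite set, and the places over a
THIN set of primes form a thin set of places.
-/

set_option autoImplicit false
set_option linter.deprecated false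

open IsDedekindDomain NumberField

noncomputable section

namespace Fermat.Agent.LT.T7.H176

variable {K : Type} [Field K] [NumberField K]

/-- A natural number `n ≠ 0` whose image lies in a prime ideal `I ≠ ⊤` has a prime factor whose
image lies in `I`. -/
theorem exists_prime_dvd_mem176 {R : Type*} [CommRing R] (I : Ideal R) [hI : I.IsPrime] :
    ∀ n : ℕ, n ≠ 0 → ((n : ℕ) : R) ∈ I → ∃ p : ℕ, p.Prime ∧ p ∣ n ∧ ((p : ℕ) : R) ∈ I := by
  intro n
  induction n using Nat.recOnMul with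
  | zero => intro h; exact absurd rfl h
  | one =>
    intro _ h
    exfalso
    apply hI.ne_top
    rw [Ideal.eq_top_iff_one]
    simpa using h
  | prime p hp => intro _ h; exact ⟨p, hp, dvd_rfl, h⟩
  | mul a b iha ihb =>
    intro hab h
    have ha : a ≠ 0 := left_ne_zero_of_mul hab
    have hb : b ≠ 0 := right_ne_zero_of_mul hab
    rw [Nat.cast_mul] at h
    rcases hI.mem_or_mem h with h1 | h1
    · obtain ⟨p, hp, hd, hm⟩ := iha ha h1
      exact ⟨p, hp, hd.mul_right b, hm⟩
    · obtain ⟨p, hp, hd, hm⟩ := ihb hb h1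
      exact ⟨p, hp, hd.mul_left a, hm⟩

theorem absNorm_ne_zero176 (v : HeightOneSpectrum (𝓞 K)) : Ideal.absNorm v.asIdeal ≠ 0 := by
  rw [Ne, Ideal.absNorm_eq_zero_iff]
  exact v.ne_bot

/-- Every finite place contains a prime number dividing its norm. -/
theorem exists_prime_dvd_absNorm176 (v : HeightOneSpectrum (𝓞 K)) :
    ∃ p : ℕ, p.Prime ∧ p ∣ Ideal.absNorm v.asIdeal ∧ ((p : ℕ) : 𝓞 K) ∈ v.asIdeal := by
  haveI := v.isPrime
  exact exists_prime_dvd_mem176 v.asIdeal _ (absNorm_ne_zero176 v) (Ideal.absNorm_mem v.asIdeal)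

/-- Every finite place contains a prime number. -/
theorem exists_prime_mem176 (v : HeightOneSpectrum (𝓞 K)) :
    ∃ p : ℕ, p.Prime ∧ ((p : ℕ) : 𝓞 K) ∈ v.asIdeal := by
  obtain ⟨p, hp, -, hm⟩ := exists_prime_dvd_absNorm176 v
  exact ⟨p, hp, hm⟩

/-- A finite place contains at most one prime number. -/
theorem prime_unique176 (v : HeightOneSpectrum (𝓞 K)) {p q : ℕ} (hp : p.Prime) (hq : q.Prime)
    (hpv : ((p : ℕ) : 𝓞 K) ∈ v.asIdeal) (hqv : ((q : ℕ) : 𝓞 K) ∈ v.asIdeal) : p = q := by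
  by_contra hne
  have hcop : Nat.Coprime p q := (Nat.coprime_primes hp hq).mpr hne
  have hb : (p : ℤ) * Nat.gcdA p q + (q : ℤ) * Nat.gcdB p q = 1 := by
    have := Nat.gcd_eq_gcd_ab p q
    rw [hcop] at this
    simpa using this.symm
  have h1 : ((1 : ℤ) : 𝓞 K) ∈ v.asIdeal := by
    rw [← hb]
    push_cast
    exact v.asIdeal.add_mem (v.asIdeal.mul_mem_right _ hpv) (v.asIdeal.mul_mem_right _ hqv)
  apply v.isPrime.ne_top
  rw [Ideal.eq_top_iff_one]
  simpa using h1

/-- `p ≤ N v` for a place `v` containing the prime `p`. -/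
theorem le_absNorm176 (v : HeightOneSpectrum (𝓞 K)) {p : ℕ} (hp : p.Prime)
    (hpv : ((p : ℕ) : 𝓞 K) ∈ v.asIdeal) : p ≤ Ideal.absNorm v.asIdeal := by
  obtain ⟨q, hq, hd, hqv⟩ := exists_prime_dvd_absNorm176 v
  have := prime_unique176 v hp hq hpv hqv
  subst this
  exact Nat.le_of_dvd (Nat.pos_of_ne_zero (absNorm_ne_zero176 v)) hd

/-- The ideal of a place containing `p` lies over `(p)`. -/
theorem mem_primesOverFinset176 (v : HeightOneSpectrum (𝓞 K)) {p : ℕ} (hp : p.Prime)
    (hpv : ((p : ℕ) : 𝓞 K) ∈ v.asIdeal) :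
    v.asIdeal ∈ IsDedekindDomain.primesOverFinset (Ideal.span {(p : ℤ)}) (𝓞 K) := by
  have hmax : (Ideal.span {(p : ℤ)}).IsMaximal :=
    PrincipalIdealRing.isMaximal_of_irreducible (Nat.prime_iff_prime_int.mp hp).irreducible
  have hp0 : Ideal.span {(p : ℤ)} ≠ ⊥ := by
    rw [Ne, Ideal.span_singleton_eq_bot]
    exact_mod_cast hp.ne_zero
  rw [IsDedekindDomain.mem_primesOverFinset_iff hp0]
  refine ⟨v.isPrime, ⟨?_⟩⟩
  have hle : Ideal.span {(p : ℤ)} ≤ v.asIdeal.under ℤ := by
    rw [Ideal.span_singleton_le_iff_mem, Ideal.under_def, Ideal.mem_comap]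
    simpa using hpv
  have hne : v.asIdeal.under ℤ ≠ ⊤ := by
    haveI := v.isPrime
    exact (Ideal.IsPrime.under ℤ v.asIdeal).ne_top
  exact hmax.eq_of_le hne hle

/-- At most `[K : ℚ]` places contain a given prime number. -/
theorem card_le_finrank176 {p : ℕ} (hp : p.Prime) (T : Finset (HeightOneSpectrum (𝓞 K)))
    (hT : ∀ v ∈ T, ((p : ℕ) : 𝓞 K) ∈ v.asIdeal) : T.card ≤ Module.finrank ℚ K := by
  classical
  have hmax : (Ideal.span {(p : ℤ)}).IsMaximal :=
    PrincipalIdealRing.isMaximal_of_irreducible (Nat.prime_iff_prime_int.mp hp).irreducible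
  have hp0 : Ideal.span {(p : ℤ)} ≠ ⊥ := by
    rw [Ne, Ideal.span_singleton_eq_bot]
    exact_mod_cast hp.ne_zero
  have h1 : T.card ≤ (IsDedekindDomain.primesOverFinset (Ideal.span {(p : ℤ)}) (𝓞 K)).card := by
    apply Finset.card_le_card_of_injOn (fun v => v.asIdeal)
    · intro v hv
      exact mem_primesOverFinset176 v hp (hT v hv)
    · intro v _ w _ h
      exact HeightOneSpectrum.ext h
  exact h1.trans (Ideal.card_primesOverFinset_le_finrank (𝓞 K) ℚ K hp0)

/-- The places containing a given prime number form a finite set. -/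
theorem finite_over176 {p : ℕ} (hp : p.Prime) :
    {v : HeightOneSpectrum (𝓞 K) | ((p : ℕ) : 𝓞 K) ∈ v.asIdeal}.Finite := by
  classical
  have hinj : Set.InjOn (fun v : HeightOneSpectrum (𝓞 K) => v.asIdeal)
      {v : HeightOneSpectrum (𝓞 K) | ((p : ℕ) : 𝓞 K) ∈ v.asIdeal} := by
    intro v _ w _ h
    exact HeightOneSpectrum.ext h
  refine Set.Finite.of_finite_image ?_ hinj
  refine Set.Finite.subset
    (IsDedekindDomain.primesOverFinset (Ideal.span {(p : ℤ)}) (𝓞 K)).finite_toSet ?_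
  rintro I ⟨v, hv, rfl⟩
  exact mem_primesOverFinset176 v hp hv

/-- The places over a finite set of primes form a finite set. -/
theorem finite_over_finset176 (S : Finset ℕ) :
    {v : HeightOneSpectrum (𝓞 K) | ∃ p ∈ S, p.Prime ∧ ((p : ℕ) : 𝓞 K) ∈ v.asIdeal}.Finite := by
  have h : {v : HeightOneSpectrum (𝓞 K) | ∃ p ∈ S, p.Prime ∧ ((p : ℕ) : 𝓞 K) ∈ v.asIdeal}
      ⊆ ⋃ p ∈ {p ∈ S | p.Prime},
        {v : HeightOneSpectrum (𝓞 K) | ((p : ℕ) : 𝓞 K) ∈ v.asIdeal} := by
    rintro v ⟨p, hpS, hp, hv⟩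
    simp only [Set.mem_iUnion]
    exact ⟨p, by simp [hpS, hp], hv⟩
  refine Set.Finite.subset ?_ h
  apply Set.Finite.biUnion (Finset.finite_toSet _)
  intro p hp
  have hp' : p.Prime := by
    have : p ∈ {p ∈ S | p.Prime} := hp
    simp at this
    exact this.2
  exact finite_over176 hp'

end Fermat.Agent.LT.T7.H176

end
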