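import Mathlib
import Fermat.Agent.LT.T7.H176.Places

/-!
# Row LT, tower T7, leaf T7.07 (helper176), OFF-MAIN: thin sets

The union of two thin sets of primes is thin; the places over a thin set of primes form a thin
set of places (at most `[K : ℚ]` places over `p`, each of norm `≥ p`).
-/

set_option autoImplicit false

open IsDedekindDomain NumberField

noncomputable section

namespace Fermat.Agent.LT.T7.H176

open Fermat.Agent.LT.T7

theorem isThin_iff_indicator176 (A : Set ℕ) :
    IsThin A ↔ Summable (A.indicator fun p : ℕ => ((p : ℕ) : ℝ)⁻¹) := by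
  unfold IsThin
  exact summable_subtype_iff_indicator (f := fun p : ℕ => ((p : ℕ) : ℝ)⁻¹) (s := A)

/-- The union of two thin sets of primes is thin. -/
theorem isThin_union176 {A B : Set ℕ} (hA : IsThin A) (hB : IsThin B) : IsThin (A ∪ B) := by
  rw [isThin_iff_indicator176] at hA hB ⊢
  refine Summable.of_nonneg_of_le ?_ ?_ (hA.add hB)
  · intro p
    exact Set.indicator_nonneg (fun _ _ => inv_nonneg.mpr (Nat.cast_nonneg _)) p
  · intro p
    have h0 : (0 : ℝ) ≤ ((p : ℕ) : ℝ)⁻¹ := inv_nonneg.mpr (Nat.cast_nonneg _)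
    by_cases hpA : p ∈ A <;> by_cases hpB : p ∈ B <;>
      simp [Set.indicator, hpA, hpB, h0]

/-- A subset of a thin set is thin. -/
theorem isThin_mono176 {A B : Set ℕ} (hAB : A ⊆ B) (hB : IsThin B) : IsThin A := by
  rw [isThin_iff_indicator176] at hB ⊢
  refine Summable.of_nonneg_of_le ?_ ?_ hB
  · intro p
    exact Set.indicator_nonneg (fun _ _ => inv_nonneg.mpr (Nat.cast_nonneg _)) p
  · intro p
    have h0 : (0 : ℝ) ≤ ((p : ℕ) : ℝ)⁻¹ := inv_nonneg.mpr (Nat.cast_nonneg _)
    by_cases hpA : p ∈ A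
    · have hpB : p ∈ B := hAB hpA
      simp [Set.indicator, hpA, hpB]
    · by_cases hpB : p ∈ B <;> simp [Set.indicator, hpA, hpB, h0]

variable {K : Type} [Field K] [NumberField K]

/-- The set of places over the primes of `A`. -/
def placesOver176 (K : Type) [Field K] [NumberField K] (A : Set ℕ) :
    Set (HeightOneSpectrum (𝓞 K)) :=
  {v | ∃ p ∈ A, p.Prime ∧ ((p : ℕ) : 𝓞 K) ∈ v.asIdeal}

/-- The places over a thin set of primes form a thin set of places. -/
theorem isThinPlaces_over176 (A : Set ℕ) (hA : IsThin A) :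
    IsThinPlaces (placesOver176 K A) := by
  classical
  unfold IsThinPlaces
  -- the prime under a place of the set
  have hex : ∀ v : placesOver176 K A, ∃ p : A, (p : ℕ).Prime ∧
      (((p : ℕ) : ℕ) : 𝓞 K) ∈ (v : HeightOneSpectrum (𝓞 K)).asIdeal := by
    rintro ⟨v, p, hpA, hp, hv⟩
    exact ⟨⟨p, hpA⟩, hp, hv⟩
  choose π hπp hπv using hex
  set n : ℕ := Module.finrank ℚ K with hn
  set c : ℝ := (n : ℝ) * ∑' p : A, (((p : ℕ) : ℝ))⁻¹ with hc
  have hf0 : ∀ v : placesOver176 K A,
      (0 : ℝ) ≤ ((Ideal.absNorm (v : HeightOneSpectrum (𝓞 K)).asIdeal : ℕ) : ℝ)⁻¹ :=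
    fun v => inv_nonneg.mpr (Nat.cast_nonneg _)
  refine summable_of_sum_le hf0 (c := c) ?_
  intro u
  -- fibrewise decomposition
  have hfib := Finset.sum_fiberwise_of_maps_to (s := u) (t := u.image π) (g := π)
    (fun v hv => Finset.mem_image_of_mem π hv)
    (fun v : placesOver176 K A =>
      ((Ideal.absNorm (v : HeightOneSpectrum (𝓞 K)).asIdeal : ℕ) : ℝ)⁻¹)
  rw [← hfib]
  have hinner : ∀ a ∈ u.image π,
      (∑ v ∈ u with π v = a,
        ((Ideal.absNorm (v : HeightOneSpectrum (𝓞 K)).asIdeal : ℕ) : ℝ)⁻¹)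
        ≤ (n : ℝ) * (((a : ℕ) : ℝ))⁻¹ := by
    intro a _
    have hap : (a : ℕ).Prime := by
      by_cases hne : (u.filter fun v => π v = a).Nonempty
      · obtain ⟨v, hv⟩ := hne
        have := (Finset.mem_filter.mp hv).2
        rw [← this]
        exact hπp v
      · -- empty fibre: impossible for `a` in the image, but we do not need it
        rename_i ha
        obtain ⟨v, hv, rfl⟩ := Finset.mem_image.mp ha
        exact hπp v
    have hapos : (0 : ℝ) < ((a : ℕ) : ℝ) := by exact_mod_cast hap.pos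
    have hterm : ∀ v ∈ u.filter (fun v => π v = a),
        ((Ideal.absNorm (v : HeightOneSpectrum (𝓞 K)).asIdeal : ℕ) : ℝ)⁻¹
          ≤ (((a : ℕ) : ℝ))⁻¹ := by
      intro v hv
      have hva : π v = a := (Finset.mem_filter.mp hv).2
      have hle : (a : ℕ) ≤ Ideal.absNorm (v : HeightOneSpectrum (𝓞 K)).asIdeal := by
        rw [← hva]
        exact le_absNorm176 _ (hπp v) (hπv v)
      have hle' : ((a : ℕ) : ℝ) ≤ ((Ideal.absNorm (v : HeightOneSpectrum (𝓞 K)).asIdeal : ℕ) : ℝ) := by
        exact_mod_cast hle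
      exact inv_anti₀ hapos hle'
    have hcard : (u.filter fun v => π v = a).card ≤ n := by
      have h1 : ((u.filter fun v => π v = a).map
          ⟨fun v : placesOver176 K A => (v : HeightOneSpectrum (𝓞 K)),
            Subtype.val_injective⟩).card ≤ n := by
        apply card_le_finrank176 hap
        intro w hw
        obtain ⟨v, hv, rfl⟩ := Finset.mem_map.mp hw
        have hva : π v = a := (Finset.mem_filter.mp hv).2
        have := hπv v
        rw [hva] at this
        exact this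
      rwa [Finset.card_map] at h1
    calc (∑ v ∈ u with π v = a,
          ((Ideal.absNorm (v : HeightOneSpectrum (𝓞 K)).asIdeal : ℕ) : ℝ)⁻¹)
        ≤ ∑ _v ∈ u with π _v = a, (((a : ℕ) : ℝ))⁻¹ := Finset.sum_le_sum hterm
      _ = ((u.filter fun v => π v = a).card : ℝ) * (((a : ℕ) : ℝ))⁻¹ := by
          rw [Finset.sum_const, nsmul_eq_mul]
      _ ≤ (n : ℝ) * (((a : ℕ) : ℝ))⁻¹ := by
          apply mul_le_mul_of_nonneg_right _ (inv_nonneg.mpr hapos.le)
          exact_mod_cast hcard
  calc (∑ a ∈ u.image π, ∑ v ∈ u with π v = a,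
        ((Ideal.absNorm (v : HeightOneSpectrum (𝓞 K)).asIdeal : ℕ) : ℝ)⁻¹)
      ≤ ∑ a ∈ u.image π, (n : ℝ) * (((a : ℕ) : ℝ))⁻¹ := Finset.sum_le_sum hinner
    _ = (n : ℝ) * ∑ a ∈ u.image π, (((a : ℕ) : ℝ))⁻¹ := by rw [Finset.mul_sum]
    _ ≤ c := by
        rw [hc]
        apply mul_le_mul_of_nonneg_left _ (Nat.cast_nonneg _)
        exact hA.sum_le_tsum _ (fun a _ => inv_nonneg.mpr (Nat.cast_nonneg _))

end Fermat.Agent.LT.T7.H176

end
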