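import Mathlib
import Fermat.Agent.LT.T7.Spec

/-!
# Row LT, tower T7, leaf T7.07 (helper176), OFF-MAIN: the station `F` is totally complex

`F = fieldF ρ` is the fixed field of `ρ⁻¹(SL₂(𝔽₃)) = ker (det ∘ ρ) = ker χ₃` (hypothesis `det` of
`LTB.Hyp`), so it contains a primitive cube root of unity `ζ` of `ℚ̄` (`σ ζ = ζ ^ χ₃(σ)`).  The
image of `ζ` under an embedding `F → ℂ` is a root of `x² + x + 1`, hence not real.
-/

set_option autoImplicit false

open IsDedekindDomain NumberField WeierstrassCurve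

noncomputable section

namespace Fermat.Agent.LT.T7.H176

open Fermat.Agent.LT.H130 Fermat.Agent.LT.T7

local notation "Γℚ" => (AlgebraicClosure ℚ ≃ₐ[ℚ] AlgebraicClosure ℚ)

/-- A primitive cube root of unity of `ℚ̄`. -/
theorem exists_zeta176 : ∃ ζ : AlgebraicClosure ℚ, IsPrimitiveRoot ζ 3 :=
  HasEnoughRootsOfUnity.exists_primitiveRoot (AlgebraicClosure ℚ) 3

/-- An element of the kernel of the mod-3 cyclotomic character fixes the cube roots of unity. -/
theorem fix_of_char_eq_one176 (σ : Γℚ) (hσ : modThreeCyclotomicChar σ = 1)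
    (ζ : AlgebraicClosure ℚ) (hζ : IsPrimitiveRoot ζ 3) : σ ζ = ζ := by
  have hunit : IsUnit ζ := hζ.isUnit (by norm_num)
  obtain ⟨t, rfl⟩ := hunit
  have ht : t ∈ rootsOfUnity 3 (AlgebraicClosure ℚ) := by
    rw [mem_rootsOfUnity]
    apply Units.ext
    rw [Units.val_pow_eq_pow_val]
    exact hζ.pow_eq_one
  have h := modularCyclotomicCharacter.spec (L := AlgebraicClosure ℚ)
    (IsAlgClosed.card_rootsOfUnity_eq (AlgebraicClosure ℚ) 3)
    (σ : AlgebraicClosure ℚ ≃+* AlgebraicClosure ℚ) ht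
  rw [modThreeCyclotomicChar_apply] at hσ
  rw [hσ] at h
  have hval : ((1 : (ZMod 3)ˣ) : ZMod 3).val = 1 := by decide
  rw [hval, pow_one] at h
  exact h

/-- The cube roots of unity lie in `F`. -/
theorem zeta_mem_fieldF176 (ρ : Γℚ →* GL (Fin 2) (ZMod 3))
    (hdet : ∀ σ : Γℚ, Matrix.GeneralLinearGroup.det (ρ σ) = modThreeCyclotomicChar σ)
    (ζ : AlgebraicClosure ℚ) (hζ : IsPrimitiveRoot ζ 3) : ζ ∈ fieldF ρ := by
  unfold fieldF
  rw [IntermediateField.mem_fixedField_iff]
  intro σ hσ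
  have h1 : Matrix.GeneralLinearGroup.det (ρ σ) = 1 := by
    have : σ ∈ (Matrix.GeneralLinearGroup.det.comp ρ).ker := hσ
    rw [MonoidHom.mem_ker] at this
    exact this
  rw [hdet σ] at h1
  exact fix_of_char_eq_one176 σ h1 ζ hζ

/-- A complex number with `z² + z + 1 = 0` is not fixed by complex conjugation. -/
theorem conj_ne_of_root176 (z : ℂ) (hz : z ^ 2 + z + 1 = 0) : (starRingEnd ℂ) z ≠ z := by
  intro h
  have him : z.im = 0 := Complex.conj_eq_iff_im.mp h
  have hre := congrArg Complex.re hz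
  simp only [Complex.add_re, Complex.one_re, Complex.zero_re, pow_two, Complex.mul_re, him,
    mul_zero, sub_zero] at hre
  nlinarith [sq_nonneg (z.re + 1 / 2)]

/-- **The station `F = fieldF ρ` is totally complex.** -/
theorem totCplx_fieldF176 (ρ : Γℚ →* GL (Fin 2) (ZMod 3))
    (hdet : ∀ σ : Γℚ, Matrix.GeneralLinearGroup.det (ρ σ) = modThreeCyclotomicChar σ)
    (nf : NumberField (fieldF ρ)) : TotCplx (fieldF ρ) := by
  intro w
  rw [← InfinitePlace.not_isReal_iff_isComplex]
  intro hw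
  obtain ⟨ζ, hζ⟩ := exists_zeta176
  have hmem := zeta_mem_fieldF176 ρ hdet ζ hζ
  set x : fieldF ρ := ⟨ζ, hmem⟩ with hx
  have hpoly : x ^ 2 + x + 1 = 0 := by
    apply Subtype.ext
    have h3 : ζ ^ 3 = 1 := hζ.pow_eq_one
    have h1 : ζ ≠ 1 := hζ.ne_one (by norm_num)
    have hf : (ζ - 1) * (ζ ^ 2 + ζ + 1) = 0 := by linear_combination h3
    rcases mul_eq_zero.mp hf with h | h
    · exact absurd (sub_eq_zero.mp h) h1
    · simpa [hx] using h
  have hreal : NumberField.ComplexEmbedding.IsReal w.embedding :=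
    InfinitePlace.isReal_iff.mp hw
  have hconj : (starRingEnd ℂ) (w.embedding x) = w.embedding x := by
    have := NumberField.ComplexEmbedding.isReal_iff.mp hreal
    have h2 := congrArg (fun φ : (fieldF ρ) →+* ℂ => φ x) this
    simpa [NumberField.ComplexEmbedding.conjugate_coe_eq] using h2
  have hz : (w.embedding x) ^ 2 + w.embedding x + 1 = 0 := by
    rw [← map_pow, ← map_add, ← map_one w.embedding, ← map_add, hpoly, map_zero]
  exact conj_ne_of_root176 _ hz hconj

end Fermat.Agent.LT.T7.H176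

end
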