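import Fermat.Agent.LT.T7.H40.ProjSpec
import Fermat.Agent.LT.T5.H277.Coeff

/-!
# Row LT, tower T7, node T7.L2.1 `SupplyC`, part PROJ: the shared tool `TranslInnerC` (helper176)

OFF-MAIN.  `translInnerC176 : T1.AdNormC K → H40.TranslInnerC K` (VERBATIM vs
`LT/T7/H40/ProjSpec.lean` of helper40, sha256 ac5b80ed):

for a frame `(μ, F)`, the ray generator `r`, a function `Ψ` which is left invariant under
`GL₂(K)` and right invariant under `r`, and EVERY `h ∈ GL₂(𝔸_K)`:
`∫_F Ψ(x h) dμ = ∫_F Ψ dμ`.

Proof: the countable group `Γ = GL₂(K) × ℤ` acts on `GL₂(𝔸_K)` by `(γ, m) • g = γ g rᵐ`,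
preserving `μ`; `F` is a strict fundamental domain (`hF.strict` + the slab, `T5/H277/Ray.lean`
of helper277), and so is `F h` (`r` is central: the right translation by `h⁻¹` commutes with the
action); an invariant function has the same integral on two fundamental domains
(`IsFundamentalDomain.setIntegral_eq`).  Continuity and boundedness of `Ψ` are not needed.

Imports: byte-identical copies of `ProjSpec.lean` and of `T5/H277/{Basic,Ray,Unfold,Coeff}.lean`
with their closures.
-/

set_option autoImplicit false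

open AutomorphicForm IsDedekindDomain NumberField MeasureTheory
open scoped ComplexConjugate

noncomputable section

namespace Fermat.Agent.LT.T7.H176

open Fermat.Agent.LT.H556 Fermat.Agent.LT.H556.A0 Fermat.Agent.LT.T5 Fermat.Agent.LT.T7

attribute [local instance] Fermat.Agent.LT.T5.instMeasurableSpaceG

variable {K : Type} [Field K] [NumberField K]

/-- The action of `GL₂(K) × ℤ` on `GL₂(𝔸_K)`: `(γ, m) • g = γ g rᵐ`. -/
@[instance_reducible]
def rayAct176 (r : G K) : MulAction (GL (Fin 2) K × Multiplicative ℤ) (G K) where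
  smul i g := ratG i.1 * g * r ^ (Multiplicative.toAdd i.2)
  one_smul g := by
    show ratG (1 : GL (Fin 2) K × Multiplicative ℤ).1 * g
      * r ^ (Multiplicative.toAdd (1 : GL (Fin 2) K × Multiplicative ℤ).2) = g
    simp
  mul_smul i j g := by
    show ratG (i * j).1 * g * r ^ (Multiplicative.toAdd (i * j).2)
      = ratG i.1 * (ratG j.1 * g * r ^ (Multiplicative.toAdd j.2))
        * r ^ (Multiplicative.toAdd i.2)
    rw [Prod.fst_mul, Prod.snd_mul, map_mul, toAdd_mul, add_comm, zpow_add]
    simp only [mul_assoc]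

theorem rayAct_smul176 (r : G K) (i : GL (Fin 2) K × Multiplicative ℤ) (g : G K) :
    (rayAct176 r).smul i g = ratG i.1 * g * r ^ (Multiplicative.toAdd i.2) := rfl

/-- The action is by tiles of helper277 (for the identity automorphism). -/
theorem rayAct_eq_tile176 (r : G K) (i : GL (Fin 2) K × Multiplicative ℤ) :
    (fun g : G K => (rayAct176 r).smul i g)
      = H277.tile277 (AdelicAut.id K) r (i.1, Multiplicative.toAdd i.2) := by
  funext g
  rw [rayAct_smul176]
  unfold H277.tile277
  rw [onG_id]

/-- For every `x` exactly one translate `γ x rᵐ` lies in `F`. -/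
theorem existsUnique_rayAct176 (hN : T1.AdNormC K) {μ : Measure (G K)} {F : Set (G K)}
    {r : G K} (hF : IsFrame μ F) (hr : IsRayGen r) (x : G K) :
    ∃! i : GL (Fin 2) K × Multiplicative ℤ, (rayAct176 r).smul i x ∈ F := by
  obtain ⟨m, hm⟩ := H277.exists_zpow_mem_slab277 hN hr x
  obtain ⟨γ, hγ, hγu⟩ := hF.strict _ hm
  refine ⟨(γ, Multiplicative.ofAdd m), ?_, ?_⟩
  · show (rayAct176 r).smul (γ, Multiplicative.ofAdd m) x ∈ F
    rw [rayAct_smul176]
    simpa only [mul_assoc, toAdd_ofAdd] using hγ
  · rintro ⟨γ', m'⟩ hi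
    have hi' : ratG γ' * (x * r ^ (Multiplicative.toAdd m')) ∈ F := by
      have := hi
      rw [rayAct_smul176] at this
      simpa only [mul_assoc] using this
    have hs : x * r ^ (Multiplicative.toAdd m') ∈ slab K := by
      have h1 := hF.sub hi'
      rw [H277.mem_slab_iff277] at h1 ⊢
      rwa [H277.nd277_mul hN, H277.nd277_ratG hN, one_mul] at h1
    have hmm : Multiplicative.toAdd m' = m := by
      have e : x * r ^ (Multiplicative.toAdd m') * r ^ (-Multiplicative.toAdd m')
          = x * r ^ m * r ^ (-m) := by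
        rw [mul_assoc, mul_assoc, ← zpow_add, ← zpow_add, add_neg_cancel, add_neg_cancel]
      have := H277.zpow_eq_of_mem_slab277 hN hr _ _ hs hm e
      omega
    have hγ' : γ' = γ := by
      apply hγu
      show ratG γ' * (x * r ^ m) ∈ F
      rw [← hmm]
      exact hi'
    have hm' : m' = Multiplicative.ofAdd m := by
      rw [← hmm, ofAdd_toAdd]
    rw [hγ', hm']

/-- **Shared tool `TranslInnerC`** (cut of helper40), from `T1.AdNormC`. -/
theorem translInnerC176 (hN : T1.AdNormC K) : H40.TranslInnerC K := by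
  intro μ F r hF hr Ψ _ _ hΨl hΨr h
  have hB : BorelSpace (G K) := H277.borelSpaceG277
  have hH : μ.IsHaarMeasure := hF.haar
  have hC : Countable (GL (Fin 2) K) := H277.countable_GL277 K
  let _ : MulAction (GL (Fin 2) K × Multiplicative ℤ) (G K) := rayAct176 r
  have hsmul : ∀ (i : GL (Fin 2) K × Multiplicative ℤ) (g : G K),
      i • g = ratG i.1 * g * r ^ (Multiplicative.toAdd i.2) := fun _ _ => rfl
  have hP : AutPreserves (AdelicAut.id K) (⊤ : Ideal (𝓞 K)) μ r := autPreserves_id ⊤ μ r
  have hmp : ∀ i : GL (Fin 2) K × Multiplicative ℤ,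
      MeasurePreserving (fun g : G K => i • g) μ μ := by
    intro i
    have h1 := H277.tile_mp277 hF hP (i.1, Multiplicative.toAdd i.2)
    rwa [← rayAct_eq_tile176 r i] at h1
  have : MeasurableConstSMul (GL (Fin 2) K × Multiplicative ℤ) (G K) :=
    ⟨fun i => (hmp i).measurable⟩
  have : SMulInvariantMeasure (GL (Fin 2) K × Multiplicative ℤ) (G K) μ :=
    ⟨fun i A hA => (hmp i).measure_preimage hA.nullMeasurableSet⟩
  -- `F` is a fundamental domain
  have hfd : IsFundamentalDomain (GL (Fin 2) K × Multiplicative ℤ) F μ :=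
    IsFundamentalDomain.mk' hF.meas.nullMeasurableSet
      (fun x => existsUnique_rayAct176 hN hF hr x)
  -- the right translation by `h⁻¹`
  have hmeas : Measurable (fun y : G K => y * h⁻¹) := (continuous_mul_const _).measurable
  have hmpT : MeasurePreserving (fun y : G K => y * h⁻¹) μ μ := by
    refine ⟨hmeas, ?_⟩
    ext A hA
    rw [Measure.map_apply hmeas hA]
    exact hF.right_inv _ A hA
  have hemb : MeasurableEmbedding (fun y : G K => y * h⁻¹) :=
    (Homeomorph.mulRight h⁻¹).measurableEmbedding
  -- `F h` is a fundamental domain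
  have hfd' : IsFundamentalDomain (GL (Fin 2) K × Multiplicative ℤ)
      ((fun y : G K => y * h⁻¹) ⁻¹' F) μ := by
    refine hfd.preimage_of_equiv hmpT.quasiMeasurePreserving (e := id)
      Function.bijective_id (fun i y => ?_)
    show (i • y) * h⁻¹ = i • (y * h⁻¹)
    rw [hsmul, hsmul]
    have hc := H277.ray_zpow_comm277 hr h⁻¹ (Multiplicative.toAdd i.2)
    rw [mul_assoc, mul_assoc, mul_assoc, hc]
    simp only [mul_assoc]
  -- invariance of `Ψ`
  have hΨinv : ∀ (i : GL (Fin 2) K × Multiplicative ℤ) (x : G K), Ψ (i • x) = Ψ x := by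
    intro i x
    rw [hsmul, H277.ray_zpow_inv277 hΨr, hΨl]
  have e1 := hfd.setIntegral_eq hfd' hΨinv
  have e2 := hmpT.setIntegral_preimage_emb hemb (fun x => Ψ (x * h)) F
  simp only [inv_mul_cancel_right] at e2
  rw [← e2, ← e1]

end Fermat.Agent.LT.T7.H176

end
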