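import Fermat.Agent.LT.T7.H561.OpsSpec
import Fermat.Agent.LT.T7.H176.TranslInner
import Fermat.Agent.LT.T7.H701.IwSys
import Fermat.Agent.LT.T5.H415.AutT5

/-!
# Row LT, tower T7, node T7.L2.2.B4 `OpsC561`, leaf B4.6 `OpsAdjC561` (helper176)

OFF-MAIN.  `opsAdjC176 : T1.AdNormC K' → H561.OpsAdjC561 K K'` (VERBATIM vs
`LT/T7/H561/OpsSpec.lean` of helper561, sha256 17293f38): on the invariant cusp functions `W` of
the base level the operator `S_j = cosetOp (Hs j)` is symmetric and `ρ_j = trOp561 (ω j)` is an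
isometry, for ANY explicit system `IsIwSys561`.

Proof.  `innerD_transl176`: `⟨R(h) ψ, R(h') χ⟩ = ⟨ψ, R(h⁻¹ h') χ⟩` for automorphic functions
invariant under the ray generator (from `translInnerC176`: the integral over the fundamental
domain of a function invariant under `GL₂(K) × r^ℤ` is invariant under right translations).
With `h_a = !![a,1;1,0] = x_a s` (`x_a = !![1,a;0,1]` in the Iwahori subgroup, `s` the Weyl
element): `R(h_a⁻¹) χ = R(s x_{-a}) χ = R(s) χ` and `⟨ψ, R(h_a) χ⟩ = ⟨R(x_{-a}) ψ, R(s) χ⟩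
= ⟨ψ, R(s) χ⟩`; both sides are `∑_{h ∈ Hs j} ⟨ψ, R(s) χ⟩`.

Imports: byte-identical copies of the spec closure, of the local toolkit `LT/H129` (helper129),
`T7/H701/IwSys.lean` (helper701), `T5/H415/AutT5.lean` (helper415), `T5/H277` (helper277).
-/

set_option autoImplicit false

open AutomorphicForm IsDedekindDomain NumberField MeasureTheory
open scoped ComplexConjugate Matrix

noncomputable section

namespace Fermat.Agent.LT.T7.H176

open Fermat.Agent.LT.H556 Fermat.Agent.LT.H556.A0 Fermat.Agent.LT.T5 Fermat.Agent.LT.T7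
open Fermat.Agent.LT.T7.H561 Fermat.Agent.LT.H129

attribute [local instance] Fermat.Agent.LT.T5.instMeasurableSpaceG

section OneField

variable {K : Type} [Field K] [NumberField K]

/-! ## 1. Translations and the inner product on the fundamental domain -/

/-- `⟨R(h) ψ, R(h') χ⟩ = ⟨ψ, R(h⁻¹ h') χ⟩` for cusp functions. -/
theorem innerD_transl176 (hN : T1.AdNormC K) {μ : Measure (G K)} {F : Set (G K)} {r : G K}
    (hF : IsFrame μ F) (hr : IsRayGen r) {𝔫 : Ideal (𝓞 K)} {ψ χ : G K → ℂ}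
    (hψ : IsCuspFn 𝔫 trivType r ψ) (hχ : IsCuspFn 𝔫 trivType r χ) (h h' : G K) :
    innerD μ F (fun x => ψ (x * h)) (fun x => χ (x * h'))
      = innerD μ F ψ (fun x => χ (x * (h⁻¹ * h'))) := by
  obtain ⟨Cψ, hCψ⟩ := hψ.bdd
  obtain ⟨Cχ, hCχ⟩ := hχ.bdd
  have hcont : Continuous fun y : G K => ψ y * conj (χ (y * (h⁻¹ * h'))) :=
    hψ.cont.mul (Complex.continuous_conj.comp (hχ.cont.comp (continuous_mul_const _)))
  have hbdd : ∃ C : ℝ, ∀ g : G K, ‖ψ g * conj (χ (g * (h⁻¹ * h')))‖ ≤ C := by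
    refine ⟨Cψ * Cχ, fun g => ?_⟩
    rw [norm_mul, RCLike.norm_conj]
    exact mul_le_mul (hCψ g) (hCχ _) (norm_nonneg _) ((norm_nonneg _).trans (hCψ g))
  have hleft : ∀ (γ : GL (Fin 2) K) (g : G K),
      ψ (ratG γ * g) * conj (χ (ratG γ * g * (h⁻¹ * h'))) = ψ g * conj (χ (g * (h⁻¹ * h'))) := by
    intro γ g
    rw [hψ.aut.left_inv, mul_assoc, hχ.aut.left_inv]
  have hright : ∀ g : G K,
      ψ (g * r) * conj (χ (g * r * (h⁻¹ * h'))) = ψ g * conj (χ (g * (h⁻¹ * h'))) := by
    intro g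
    have hc : g * r * (h⁻¹ * h') = g * (h⁻¹ * h') * r := by
      rw [mul_assoc, H277.ray_comm277 hr, ← mul_assoc]
    rw [hψ.aut.ray, hc, hχ.aut.ray]
  have key := translInnerC176 hN μ F r hF hr _ hcont hbdd hleft hright h
  unfold innerD
  rw [← key]
  refine integral_congr_ae (Filter.Eventually.of_forall fun x => ?_)
  show ψ (x * h) * conj (χ (x * h')) = ψ (x * h) * conj (χ (x * h * (h⁻¹ * h')))
  rw [mul_assoc x h, mul_inv_cancel_left]

/-- The inner product is additive in the first variable (finite sums of translates). -/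
theorem innerD_sum_left176 {μ : Measure (G K)} {F : Set (G K)} {r : G K}
    (hF : IsFrame μ F) {𝔫 : Ideal (𝓞 K)} {ψ χ : G K → ℂ}
    (hψ : IsCuspFn 𝔫 trivType r ψ) (hχ : IsCuspFn 𝔫 trivType r χ) (H : Finset (G K)) :
    innerD μ F (cosetOp H ψ) χ = ∑ h ∈ H, innerD μ F (fun x => ψ (x * h)) χ := by
  have hB : BorelSpace (G K) := H277.borelSpaceG277
  have hfin : IsFiniteMeasure (μ.restrict F) := ⟨by simpa using hF.finite⟩
  obtain ⟨Cψ, hCψ⟩ := hψ.bdd
  obtain ⟨Cχ, hCχ⟩ := hχ.bdd
  unfold innerD cosetOp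
  rw [← integral_finsetSum]
  · refine integral_congr_ae (Filter.Eventually.of_forall fun x => ?_)
    simp only [Finset.sum_mul]
  · intro h _
    refine Integrable.of_bound (C := Cψ * Cχ) ?_ (Filter.Eventually.of_forall fun x => ?_)
    · exact ((hψ.cont.comp (continuous_mul_const h)).mul
        (Complex.continuous_conj.comp hχ.cont)).aestronglyMeasurable
    · rw [norm_mul, RCLike.norm_conj]
      exact mul_le_mul (hCψ _) (hCχ _) (norm_nonneg _) ((norm_nonneg _).trans (hCψ x))

/-- The inner product is additive in the second variable (finite sums of translates). -/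
theorem innerD_sum_right176 {μ : Measure (G K)} {F : Set (G K)} {r : G K}
    (hF : IsFrame μ F) {𝔫 : Ideal (𝓞 K)} {ψ χ : G K → ℂ}
    (hψ : IsCuspFn 𝔫 trivType r ψ) (hχ : IsCuspFn 𝔫 trivType r χ) (H : Finset (G K)) :
    innerD μ F ψ (cosetOp H χ) = ∑ h ∈ H, innerD μ F ψ (fun x => χ (x * h)) := by
  have hB : BorelSpace (G K) := H277.borelSpaceG277
  have hfin : IsFiniteMeasure (μ.restrict F) := ⟨by simpa using hF.finite⟩
  obtain ⟨Cψ, hCψ⟩ := hψ.bdd
  obtain ⟨Cχ, hCχ⟩ := hχ.bdd
  unfold innerD cosetOp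
  rw [← integral_finsetSum]
  · refine integral_congr_ae (Filter.Eventually.of_forall fun x => ?_)
    simp only [map_sum, Finset.mul_sum]
  · intro h _
    refine Integrable.of_bound (C := Cψ * Cχ) ?_ (Filter.Eventually.of_forall fun x => ?_)
    · exact (hψ.cont.mul (Complex.continuous_conj.comp
        (hχ.cont.comp (continuous_mul_const h)))).aestronglyMeasurable
    · rw [norm_mul, RCLike.norm_conj]
      exact mul_le_mul (hCψ _) (hCχ _) (norm_nonneg _) ((norm_nonneg _).trans (hCψ x))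

/-! ## 2. Local elements and the Iwahori invariance -/

/-- An element which is trivial at `v` lies in the Iwahori subgroup at `v`. -/
theorem inIwahori_of_trivAtFin176 {v : HeightOneSpectrum (𝓞 K)} {g : G K}
    (hg : TrivAtFin v g) : InIwahori v g := by
  have h1 : finCompHom129 v g = 1 := (trivAtFin_iff129 v g).1 hg
  have h2 : finCompHom129 v g⁻¹ = 1 := by rw [map_inv, h1, inv_one]
  have hint : ∀ u : G K, finCompHom129 v u = 1 → IsIntegralAt v u := by
    intro u hu
    rw [isIntegralAt_iff129, hu]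
    intro i j
    by_cases hij : i = j
    · subst hij
      simp only [Units.val_one, Matrix.one_apply_eq]
      exact (v.adicCompletionIntegers K).one_mem
    · simp only [Units.val_one, Matrix.one_apply_ne hij]
      exact (v.adicCompletionIntegers K).zero_mem
  refine ⟨hint g h1, hint g⁻¹ h2, ?_⟩
  rw [← coe_finCompHom129, h1]
  simp

/-- An Iwahori-invariant function is invariant under the upper unipotent elements with integral
entry at a place of the orbit. -/
theorem iwInv_upper176 {l : ℕ} {o : ℕ → HeightOneSpectrum (𝓞 K)} {ψ : G K → ℂ}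
    (hψ : IsIwInv l o ψ) {v : HeightOneSpectrum (𝓞 K)} (hv : ∃ j₀ < l, o j₀ = v)
    {b : v.adicCompletion K} (hb : b ∈ v.adicCompletionIntegers K) (x : G K) :
    ψ (x * locFin129 v (upperU129 b)) = ψ x := by
  obtain ⟨j₀, hj₀, rfl⟩ := hv
  have hloc := isLocalAtFin_locFin129 (o j₀) (upperU129 b)
  refine hψ _ hloc.1 (fun v hv => hloc.2 v (hv j₀ hj₀)) (fun j' _ => ?_) x
  by_cases h : o j' = o j₀
  · rw [h]
    exact H701.inIwahori_upper701 (o j₀) hb
  · exact inIwahori_of_trivAtFin176 (hloc.2 _ h)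

/-! ## 3. The local algebra: `!![a, 1; 1, 0] = x_a s` -/

section LocalAlg

variable {F : Type*} [Field F]

/-- The representative `!![a, 1; 1, 0]`. -/
def repS176 (a : F) : GL (Fin 2) F := mkGL129 a 1 1 0 (by simp)

theorem repS_eq176 (a : F) : repS176 a = upperU129 a * weyl129 := by
  apply ext_mat129
  rw [Matrix.GeneralLinearGroup.coe_mul]
  simp [repS176, upperU129, weyl129]

theorem repS_inv176 (a : F) : (repS176 a)⁻¹ = weyl129 * upperU129 (-a) := by
  rw [repS_eq176, mul_inv_rev, weyl129_inv, upperU129_inv]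

theorem upper_mul_repS176 (a : F) : upperU129 (-a) * repS176 a = weyl129 := by
  rw [repS_eq176, ← mul_assoc, ← upperU129_inv, inv_mul_cancel, one_mul]

end LocalAlg

/-- An element of an explicit system is the local embedding of `!![a, 1; 1, 0]`. -/
theorem eq_locFin_repS176 {v : HeightOneSpectrum (𝓞 K)} {h : G K} (hloc : IsLocalAtFin v h)
    {a : v.adicCompletion K} (ha : finComp v h = !![a, 1; 1, 0]) :
    h = locFin129 v (repS176 a) := by
  have h1 := eq_locFin129_of_isLocalAtFin hloc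
  have h2 : finCompHom129 v h = repS176 a := by
    apply ext_mat129
    rw [coe_finCompHom129, ha]
    rfl
  rw [h2] at h1
  exact h1

/-- **The key of the symmetry**: for `h = !![a, 1; 1, 0]` at a place `v` of the orbit and
Iwahori-invariant cusp functions, `⟨R(h) ψ, χ⟩ = ⟨ψ, R(s) χ⟩ = ⟨ψ, R(h) χ⟩`. -/
theorem innerD_repS176 (hN : T1.AdNormC K) {μ : Measure (G K)} {F : Set (G K)} {r : G K}
    (hF : IsFrame μ F) (hr : IsRayGen r) {𝔫 : Ideal (𝓞 K)} {ψ χ : G K → ℂ}
    (hψ : IsCuspFn 𝔫 trivType r ψ) (hχ : IsCuspFn 𝔫 trivType r χ)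
    {l : ℕ} {o : ℕ → HeightOneSpectrum (𝓞 K)} (hψi : IsIwInv l o ψ) (hχi : IsIwInv l o χ)
    {v : HeightOneSpectrum (𝓞 K)} (hv : ∃ j₀ < l, o j₀ = v)
    {a : v.adicCompletion K} (ha : a ∈ v.adicCompletionIntegers K) :
    innerD μ F (fun x => ψ (x * locFin129 v (repS176 a))) χ
      = innerD μ F ψ (fun x => χ (x * locFin129 v (repS176 a))) := by
  have hna : -a ∈ v.adicCompletionIntegers K := (v.adicCompletionIntegers K).neg_mem _ ha
  -- the left side
  have e1 : innerD μ F (fun x => ψ (x * locFin129 v (repS176 a))) χ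
      = innerD μ F ψ (fun x => χ (x * locFin129 v weyl129)) := by
    have h1 := innerD_transl176 hN hF hr hψ hχ (locFin129 v (repS176 a)) 1
    have h2 : (fun x : G K => χ (x * 1)) = χ := by
      funext x
      rw [mul_one]
    rw [h2] at h1
    rw [h1]
    congr 1
    funext x
    rw [mul_one, ← map_inv, repS_inv176, map_mul, ← mul_assoc]
    exact iwInv_upper176 hχi hv hna _
  -- the right side
  have e2 : innerD μ F ψ (fun x => χ (x * locFin129 v (repS176 a)))
      = innerD μ F ψ (fun x => χ (x * locFin129 v weyl129)) := by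
    have h1 := innerD_transl176 hN hF hr hψ hχ (locFin129 v (upperU129 (-a)))
      (locFin129 v (upperU129 (-a)) * locFin129 v (repS176 a))
    rw [inv_mul_cancel_left] at h1
    rw [← h1]
    have h3 : (fun x : G K => ψ (x * locFin129 v (upperU129 (-a)))) = ψ := by
      funext x
      exact iwInv_upper176 hψi hv hna x
    rw [h3, ← map_mul, upper_mul_repS176]
  rw [e1, e2]

end OneField

/-! ## 4. The leaf -/

section TwoFields

variable {K K' : Type} [Field K] [NumberField K] [Field K'] [NumberField K'] [Algebra K K']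

omit [Algebra K K'] in
theorem isBad_one176 (Dt : L2Data K K') : Dt.IsBad 1 :=
  ⟨fun w => (trivAtInf_iff129 w 1).2 (map_one _), fun v _ => (trivAtFin_iff129 v 1).2 (map_one _)⟩

/-- The orbit is periodic. -/
theorem orbit_add_period176 {ℓ : ℕ} {Φ : HeckeEigensystem K' ℂ} {Dt : L2Data K K'}
    (hDt : IsL2Data ℓ Φ Dt) (j : ℕ) : Dt.o (j + ℓ) = Dt.o j := by
  have hc : IsCyclicOfDegree Dt.s Dt.l Dt.k := (hDt.comp 1 (isBad_one176 Dt)).cyc
  have h := H415.orbit_period415 Dt.s Dt.l Dt.k hc (fun n => Dt.o (j + n))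
    (fun n => hDt.orbit_rel (j + n))
  rw [hDt.deg] at h
  exact h

/-- Every place of the orbit is one of the first `ℓ`. -/
theorem orbit_mod176 {ℓ : ℕ} {Φ : HeckeEigensystem K' ℂ} {Dt : L2Data K K'}
    (hDt : IsL2Data ℓ Φ Dt) (j : ℕ) : ∃ j₀ < ℓ, Dt.o j₀ = Dt.o j := by
  have hc : IsCyclicOfDegree Dt.s Dt.l Dt.k := (hDt.comp 1 (isBad_one176 Dt)).cyc
  have hpos : 0 < ℓ := hDt.deg ▸ hc.pos
  have hmul : ∀ n i : ℕ, Dt.o (i + n * ℓ) = Dt.o i := by
    intro n
    induction n with
    | zero => intro i; rw [Nat.zero_mul, Nat.add_zero]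
    | succ n ih =>
      intro i
      rw [Nat.succ_mul, ← Nat.add_assoc, orbit_add_period176 hDt, ih]
  refine ⟨j % ℓ, Nat.mod_lt _ hpos, ?_⟩
  have h := hmul (j / ℓ) (j % ℓ)
  rw [Nat.mul_comm, Nat.mod_add_div] at h
  exact h.symm

/-- **LEAF B4.6 `OpsAdjC561`** from `T1.AdNormC`. -/
theorem opsAdjC176 (hN : T1.AdNormC K') : OpsAdjC561 K K' := by
  intro ℓ Φ Dt hs Hs ω hsys j ψ χ hψ hχ
  have hDt := hs.data
  have hcomp := hDt.comp 1 (isBad_one176 Dt)
  have hF : IsFrame Dt.R'.μ Dt.R'.F := hcomp.frame'.frame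
  have hr : IsRayGen Dt.R'.r := hcomp.frame'.ray
  constructor
  · rw [innerD_sum_left176 hF hψ.cusp hχ.cusp, innerD_sum_right176 hF hψ.cusp hχ.cusp]
    refine Finset.sum_congr rfl fun h hh => ?_
    obtain ⟨a, ha, hah⟩ := hsys.Hs_comp j h hh
    rw [eq_locFin_repS176 (hsys.Hs_local j h hh) hah]
    exact innerD_repS176 hN hF hr hψ.cusp hχ.cusp hψ.iw hχ.iw (orbit_mod176 hDt j) ha
  · have h1 := innerD_transl176 hN hF hr hψ.cusp hχ.cusp (ω j) (ω j)
    rw [inv_mul_cancel] at h1
    have h2 : (fun x : G K' => χ (x * 1)) = χ := by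
      funext x
      rw [mul_one]
    rw [h2] at h1
    exact h1

end TwoFields

end Fermat.Agent.LT.T7.H176

end
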