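import Fermat.Agent.LT.T7.H561.OpsSpec
import Fermat.Agent.LT.H129.Local
import Fermat.Agent.LT.T5.H415.AutT5

/-!
# Row LT, tower T7, node T7.L2.2.B4 `OpsC561`, leaf B4.4 `OpsCommC561` (helper176)

OFF-MAIN.  `opsCommC176 : H561.OpsCommC561 K K'` (VERBATIM vs `LT/T7/H561/OpsSpec.lean` of
helper561, sha256 17293f38), UNCONDITIONAL: the operators at two different places of the orbit
commute.

Proof.  `o j ≠ o j'` for `j ≠ j' < ℓ` (`orbit_ne` + `orbit_rel`: the relation `PlaceRel` is
injective, `finRel_inj415` of helper415); elements supported at two different finite places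
commute (`G_ext129` of helper129); finite sums.

Imports: byte-identical copies of the spec closure, `LT/H129/{Comp,Local}.lean` (helper129),
`LT/H415`, `T5/H415/AutT5.lean` (helper415).
-/

set_option autoImplicit false

open AutomorphicForm IsDedekindDomain NumberField MeasureTheory
open scoped ComplexConjugate Matrix

noncomputable section

namespace Fermat.Agent.LT.T7.H176

open Fermat.Agent.LT.H556 Fermat.Agent.LT.H556.A0 Fermat.Agent.LT.T5 Fermat.Agent.LT.T7
open Fermat.Agent.LT.T7.H561 Fermat.Agent.LT.H129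

section OneField

variable {K : Type} [Field K] [NumberField K]

/-- Elements supported at two different finite places commute. -/
theorem commute_of_local_ne176 {v v' : HeightOneSpectrum (𝓞 K)} (hne : v ≠ v') {g h : G K}
    (hg : IsLocalAtFin v g) (hh : IsLocalAtFin v' h) : g * h = h * g := by
  rw [isLocalAtFin_iff129] at hg hh
  apply G_ext129
  · intro w
    rw [map_mul, map_mul, hg.1 w, hh.1 w]
  · intro u
    rw [map_mul, map_mul]
    by_cases hu : u = v
    · have hu' : u ≠ v' := fun h' => hne (hu.symm.trans h')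
      rw [hh.2 u hu', mul_one, one_mul]
    · rw [hg.2 u hu, mul_one, one_mul]

/-- The places of an orbit with `o j ≠ o 0` for `0 < j < l` are pairwise different. -/
theorem orbit_injOn176 (s : AdelicAut K) {l : ℕ} {o : ℕ → HeightOneSpectrum (𝓞 K)}
    (hrel : ∀ j : ℕ, PlaceRel s (o j) (o (j + 1)))
    (hne : ∀ j : ℕ, 0 < j → j < l → o j ≠ o 0) :
    ∀ j j' : ℕ, j < l → j' < l → j ≠ j' → o j ≠ o j' := by
  have key : ∀ d j : ℕ, 0 < d → j + d < l → o j ≠ o (j + d) := by
    intro d j
    induction j with
    | zero =>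
      intro hd hl h
      rw [Nat.zero_add] at hl h
      exact hne d hd hl h.symm
    | succ j ih =>
      intro hd hl h
      apply ih hd (by omega)
      have h1 : PlaceRel s (o j) (o (j + 1)) := hrel j
      have h2 : PlaceRel s (o (j + d)) (o (j + 1)) := by
        have := hrel (j + d)
        rw [show j + d + 1 = j + 1 + d by omega, ← h] at this
        exact this
      exact H415.finRel_inj415 s.σ _ _ _ h1 h2
  intro j j' hj hj' hjj
  rcases Nat.lt_or_gt_of_ne hjj with h | h
  · have := key (j' - j) j (by omega) (by omega)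
    rwa [show j + (j' - j) = j' by omega] at this
  · have := key (j - j') j' (by omega) (by omega)
    rw [show j' + (j - j') = j by omega] at this
    exact fun e => this e.symm

end OneField

section TwoFields

variable {K K' : Type} [Field K] [NumberField K] [Field K'] [NumberField K'] [Algebra K K']

/-- **LEAF B4.4 `OpsCommC561`.** -/
theorem opsCommC176 : OpsCommC561 K K' := by
  intro ℓ Φ Dt hs Hs ω hsys j j' hj hj' hjj ψ x
  have hDt := hs.data
  have hne : Dt.o j ≠ Dt.o j' :=
    orbit_injOn176 Dt.s hDt.orbit_rel hDt.orbit_ne j j' hj hj' hjj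
  have hSS : ∀ h ∈ Hs j, ∀ h' ∈ Hs j', h * h' = h' * h := fun h hh h' hh' =>
    commute_of_local_ne176 hne (hsys.Hs_local j h hh) (hsys.Hs_local j' h' hh')
  have hSω : ∀ h ∈ Hs j, h * ω j' = ω j' * h := fun h hh =>
    commute_of_local_ne176 hne (hsys.Hs_local j h hh) (hsys.ω_local j')
  have hωω : ω j * ω j' = ω j' * ω j :=
    commute_of_local_ne176 hne (hsys.ω_local j) (hsys.ω_local j')
  refine ⟨?_, ?_, ?_⟩
  · show ∑ h ∈ Hs j, ∑ h' ∈ Hs j', ψ (x * h * h') = ∑ h' ∈ Hs j', ∑ h ∈ Hs j, ψ (x * h' * h)
    rw [Finset.sum_comm]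
    refine Finset.sum_congr rfl fun h' hh' => Finset.sum_congr rfl fun h hh => ?_
    rw [mul_assoc, hSS h hh h' hh', ← mul_assoc]
  · show ∑ h ∈ Hs j, ψ (x * h * ω j') = ∑ h ∈ Hs j, ψ (x * ω j' * h)
    refine Finset.sum_congr rfl fun h hh => ?_
    rw [mul_assoc, hSω h hh, ← mul_assoc]
  · show ψ (x * ω j * ω j') = ψ (x * ω j' * ω j)
    rw [mul_assoc, hωω, ← mul_assoc]

end TwoFields

end Fermat.Agent.LT.T7.H176

end
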